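import Fermat.Agent.S24
import Fermat.Agent.MF.CuspFormJ
import Fermat.Agent.MF.ThetaJ
import Fermat.Agent.MF.Field
import Fermat.Agent.MF.Coeff.BaseChange
import Fermat.Agent.FF.KaehlerDivX
import Fermat.Prelude.Def_FLTPrelim_Modularity

/-!
# Weight two cusp forms give differentials without poles on `ℚ̄(X₀(M))`

For an integral cusp form `f`, the function `z = f / θ j` lies in the field and `z dj` is regular.
-/

set_option autoImplicit false

noncomputable section

open UpperHalfPlane AlgebraicCurve ModularCurve WithZero CongruenceSubgroup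
open scoped ModularForm MatrixGroups

namespace Fermat.Agent.LLp

open Fermat.Agent.MF Fermat.Agent.MF.PlaceOrbits

/-- If `ord z + (local degree)` is positive at zeros of `x - a` and at poles of `x`, then `z dx`
has no poles. -/
theorem mem_rr_of_local_bounds {K F : Type*} [Field K] [CharZero K] [Field F] [Algebra K F]
    [IsCurveOver K F]
    {x : F} (hx : KaehlerDifferential.D K F x ≠ 0) (hdeg : ∀ P : Place K F, P.deg = 1)
    {E : Divisor K F} (hE : ∀ P : Place K F, E P = P.ordDifferential (KaehlerDifferential.D K F x))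
    {z : F}
    (hfin : ∀ P : Place K F, ∀ a : K, 0 < P.ord (x - algebraMap K F a) →
      z = 0 ∨ 1 ≤ P.ord z + P.ord (x - algebraMap K F a))
    (hinf : ∀ P : Place K F, P.ord x < 0 → z = 0 ∨ 1 ≤ P.ord z + P.ord x) :
    z ∈ riemannRochSpace E := by
  rw [mem_riemannRochSpace_iff]
  intro P
  rw [hE P]
  rcases FF.KS.ordDifferential_D_cases (hdeg P) hx with ⟨h, e⟩ | ⟨-, a, ha, e⟩
  · exact (hinf P h).imp id fun h' => by omega
  · exact (hfin P a ha).imp id fun h' => by omega

section JData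

variable {K : Type*} [Field K] [IsAlgClosed K] {ι : K →+* ℂ} {N : ℕ} [NeZero N]
  {E : IntermediateField K (LaurentSeries K)} (D : JData ι N E)
  {z : E} {f : CuspForm (Gamma0 N) 2}

include D in
theorem one_le_ord_add_of_point (hf : cuspToDiff N f = coeffMap ι (z : LaurentSeries K))
    (P : Place K E) (a : K) (ha : 0 < P.ord (D.j - algebraMap K E a)) :
    z = 0 ∨ 1 ≤ P.ord z + P.ord (D.j - algebraMap K E a) := by
  rcases eq_or_ne z 0 with h0 | h0
  · exact Or.inl h0
  refine Or.inr ?_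
  obtain ⟨τ, hτ⟩ := kleinJ_surjective (ι a)
  obtain ⟨h, hg⟩ := exists_isStabGen τ
  obtain ⟨e, he⟩ := D.exists_pointEquiv hτ hg
  obtain ⟨o, ho⟩ := e.surjective ⟨P, ha⟩
  obtain ⟨q, rfl⟩ := Quotient.mk''_surjective o
  obtain ⟨-, hord, hall⟩ := he q
  rw [ho] at hord hall
  simp only at hord hall
  have hz := hall z
  obtain ⟨k, F, G, hG, hzF⟩ := mem_MFField_iff.mp (D.emb z).2
  have hF : F ≠ 0 := coe_ne_zero_of_ne_zero ((map_ne_zero D.emb).mpr h0) hzF
  obtain ⟨hpt, -⟩ := (exists_cuspToDiff_eq_iff hF hG).mp ⟨f, hf.trans hzF⟩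
  induction q using QuotientGroup.induction_on with
  | H g =>
    have h1 := hpt (g⁻¹ • τ)
    rw [← hzF, mfOrdAt_eq_neg_log_ptVal _ ((map_ne_zero D.emb).mpr h0), kleinJDegree_smul] at h1
    rw [JData.pointVal, Valuation.comap_apply, ptValAt_mk] at hz
    have hs : 0 < orbitSize h (QuotientGroup.mk g : Cosets.X0 N) := orbitSize_pos h _
    have hk := kleinJDegree_pos τ
    rw [hord]
    set s := (orbitSize h (QuotientGroup.mk g : Cosets.X0 N) : ℤ) with hs'
    set L₀ := -log (ptVal N (g⁻¹ • τ) (D.emb z))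
    set kd := (kleinJDegree τ : ℤ)
    by_contra hlt
    have h2 : kd * (P.ord z + s) ≤ 0 :=
      mul_nonpos_of_nonneg_of_nonpos (by omega) (by omega)
    have h3 : s * 1 ≤ s * (L₀ + kd) := mul_le_mul_of_nonneg_left h1 (by omega)
    have h4 : kd * (P.ord z + s) = s * (L₀ + kd) := by rw [mul_add, hz]; ring
    omega

include D in
theorem one_le_ord_add_of_pole (hf : cuspToDiff N f = coeffMap ι (z : LaurentSeries K))
    (P : Place K E) (hP : P.ord D.j < 0) : z = 0 ∨ 1 ≤ P.ord z + P.ord D.j := by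
  rcases eq_or_ne z 0 with h0 | h0
  · exact Or.inl h0
  refine Or.inr ?_
  obtain ⟨e, he⟩ := D.exists_cuspEquiv
  obtain ⟨o, ho⟩ := e.surjective ⟨P, by rw [P.ord_inv]; omega⟩
  obtain ⟨q, rfl⟩ := Quotient.mk''_surjective o
  obtain ⟨-, hord, hall⟩ := he q
  rw [ho] at hord hall
  simp only at hord hall
  have hz := hall z
  obtain ⟨k, F, G, hG, hzF⟩ := mem_MFField_iff.mp (D.emb z).2
  have hF : F ≠ 0 := coe_ne_zero_of_ne_zero ((map_ne_zero D.emb).mpr h0) hzF
  obtain ⟨-, hcu⟩ := (exists_cuspToDiff_eq_iff hF hG).mp ⟨f, hf.trans hzF⟩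
  induction q using QuotientGroup.induction_on with
  | H g =>
    have h1 := hcu g⁻¹
    rw [JData.cuspVal, Valuation.comap_apply, cuspValAt_mk,
      (cuspOrder N g⁻¹).log_val hF hG hzF] at hz
    rw [← PowerSeries.coe_toNat_order (qExpansion_slash_ne_zero F (mform_coe_ne_zero hF) g⁻¹),
      ← PowerSeries.coe_toNat_order (qExpansion_slash_ne_zero G (mform_coe_ne_zero hG) g⁻¹)] at h1
    norm_cast at h1
    have hs : 0 < orbitSize ModularGroup.T (QuotientGroup.mk g : Cosets.X0 N) := orbitSize_pos _ _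
    rw [P.ord_inv] at hord
    set s := (orbitSize ModularGroup.T (QuotientGroup.mk g : Cosets.X0 N) : ℤ)
    set a := ((qExpansion (N : ℝ) (⇑F ∣[k] g⁻¹)).order.toNat : ℤ) with ha
    set b := ((qExpansion (N : ℝ) (⇑G ∣[k] g⁻¹)).order.toNat : ℤ) with hb
    have hz' : (N : ℤ) * P.ord z = s * (a - b) := by
      rw [hz]
      congr 1
      show -((cuspOrder N g⁻¹).toFun k G - (cuspOrder N g⁻¹).toFun k F) = a - b
      rw [neg_sub]
      rfl
    have h5 : (b : ℤ) + N < a := by rw [ha, hb]; exact_mod_cast h1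
    have hN := NeZero.pos N
    by_contra hlt
    have h2 : (N : ℤ) * (P.ord z + P.ord D.j) ≤ 0 :=
      mul_nonpos_of_nonneg_of_nonpos (by omega) (by omega)
    have h3 : s * 1 ≤ s * (a - b - N) := mul_le_mul_of_nonneg_left (by omega) (by omega)
    have hj : P.ord D.j = -s := by omega
    have h4 : (N : ℤ) * (P.ord z + P.ord D.j) = s * (a - b - N) := by rw [hj, mul_add, hz']; ring
    omega

end JData

/-- The expansion of `f` with integral coefficients `a`, over a ring `R`. -/
def intSeries (R : Type*) [CommRing R] (a : ℕ → ℤ) : LaurentSeries R :=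
  HahnSeries.ofPowerSeries ℤ R (PowerSeries.mk fun n => (a n : R))

theorem coeffMap_intSeries {R S : Type*} [CommRing R] [CommRing S] (φ : R →+* S) (a : ℕ → ℤ) :
    coeffMap φ (intSeries R a) = intSeries S a := by
  rw [intSeries, intSeries, ModularCurve.coeffMap_ofPowerSeries]
  congr 1
  ext n
  simp

theorem intSeries_eq_qL {M : ℕ} {f : CuspForm (Gamma0 M) 2} {a : ℕ → ℤ}
    (ha : ∀ n, ModularFormClass.qCoeff f n = a n) : qL f = intSeries ℂ a := by
  rw [qL, intSeries]
  congr 1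
  ext n
  rw [PowerSeries.coeff_mk, ← ha n]
  rfl

theorem thetaL_jC_ne_zero : thetaL (jC) ≠ 0 := by
  intro h
  have := congrArg (fun x : LaurentSeries ℂ => x.coeff (-1)) h
  simp [coeff_jqModC_neg_one] at this

/-- `f / θ j`, as a rational series in the full field. -/
theorem exists_rat_ratio {M : ℕ} [NeZero M] (f : CuspForm (Gamma0 M) 2) {a : ℕ → ℤ}
    (ha : ∀ n, ModularFormClass.qCoeff f n = a n) :
    ∃ r ∈ modularFunctionFieldFull M, r * thetaL jq = intSeries ℚ a ∧
      coeffEmb ℂ r = cuspToDiff M (-f) := by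
  have hjq : coeffEmb ℂ jq = jC := MF.Coeff.coeffEmb_jq_eq ℂ
  have hθq : thetaL jq ≠ 0 := fun h => thetaL_jC_ne_zero (by
    rw [← hjq, coeffEmb, ← coeffMap_thetaL, h, map_zero])
  set r := intSeries ℚ a / thetaL jq with hr
  have hrmul : r * thetaL jq = intSeries ℚ a := div_mul_cancel₀ _ hθq
  have hθC : coeffEmb ℂ (thetaL jq) = thetaL jC := by
    rw [coeffEmb, coeffMap_thetaL]
    exact congrArg thetaL hjq
  have hrC : coeffEmb ℂ r = cuspToDiff M (-f) := by
    have hA : qL (cuspA M) = qL (⇑ModularForm.E₄) ^ 2 * qL (⇑ModularForm.E₆) := by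
      rw [coe_cuspA, qL_mul (mul_mem (coe_levelOne_mem_qFunctions _)
        (coe_levelOne_mem_qFunctions _)) (coe_levelOne_mem_qFunctions _),
        qL_mul (coe_levelOne_mem_qFunctions _) (coe_levelOne_mem_qFunctions _), sq]
    have hD : qL (cuspD M) = qL ModularForm.discriminant := by rw [coe_cuspD]
    have hneg : qL (⇑(-f)) = - qL (⇑f) := by
      rw [FunLike.coe_neg, ← neg_one_smul ℂ (⇑f), qL_smul (-1 : ℂ) (qL_cuspForm_mem f), map_neg,
        map_one]
      ring
    have hd0 : qL (cuspD M) ≠ 0 := mt (qL_mform_eq_zero_iff _).mp (cuspD_ne_zero M)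
    have ha0 : qL (cuspA M) ≠ 0 := mt (qL_mform_eq_zero_iff _).mp (cuspA_ne_zero M)
    rw [hr, map_div₀, hθC, cuspToDiff, cuspToRatio_apply, hneg, intSeries_eq_qL ha]
    have hi : coeffEmb ℂ (intSeries ℚ a) = intSeries ℂ a := coeffMap_intSeries _ a
    rw [hi, thetaL_jC_eq_div, ← hA, ← hD]
    field_simp
  refine ⟨r, ?_, hrmul, hrC⟩
  refine (MF.Coeff.coeffEmb_mem_laurentBaseChange_iff (L := ℂ)).mp ?_
  rw [hrC, ← MFField_eq_laurentBaseChange M]
  exact cuspToDiff_mem_MFField M _

/-- **The differential of an integral cusp form on `ℚ̄(X₀(M))`.** -/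
theorem exists_regular_ratio {M : ℕ} [NeZero M] (f : CuspForm (Gamma0 M) 2) {a : ℕ → ℤ}
    (ha : ∀ n, ModularFormClass.qCoeff f n = a n) :
    ∃ z : modularFunctionFieldBar M,
      (z : LaurentSeries (AlgebraicClosure ℚ)) * thetaL (jqModC (AlgebraicClosure ℚ)) =
        intSeries (AlgebraicClosure ℚ) a ∧
      (∀ (P : Place (AlgebraicClosure ℚ) (modularFunctionFieldBar M)) (b : AlgebraicClosure ℚ),
        0 < P.ord ((S24.jDataBar M).j - algebraMap _ _ b) →
          z = 0 ∨ 1 ≤ P.ord z + P.ord ((S24.jDataBar M).j - algebraMap _ _ b)) ∧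
      ∀ P : Place (AlgebraicClosure ℚ) (modularFunctionFieldBar M),
        P.ord (S24.jDataBar M).j < 0 → z = 0 ∨ 1 ≤ P.ord z + P.ord (S24.jDataBar M).j := by
  obtain ⟨r, hrF, hr, hrC⟩ := exists_rat_ratio f ha
  refine ⟨⟨coeffEmb (AlgebraicClosure ℚ) r, coeffEmb_mem_laurentBaseChange _ hrF⟩, ?_, ?_, ?_⟩
  · have := congrArg (coeffEmb (AlgebraicClosure ℚ)) hr
    rw [map_mul] at this
    rw [← MF.Coeff.coeffEmb_jq_eq (AlgebraicClosure ℚ)]
    simp only [coeffEmb] at this ⊢
    rw [coeffMap_thetaL, coeffMap_intSeries] at this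
    exact this
  · exact one_le_ord_add_of_point (S24.jDataBar M)
      (hrC.symm.trans (HK.coeffMap_coeffEmb_complex _ _).symm)
  · exact one_le_ord_add_of_pole (S24.jDataBar M)
      (hrC.symm.trans (HK.coeffMap_coeffEmb_complex _ _).symm)

end Fermat.Agent.LLp
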