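import Fermat.Agent.LLp.Diff.RedDiv
import Fermat.Agent.LLp.Diff.CharZero
import Fermat.Agent.LLp.SeriesAux

/-!
# Differentials on the special curve are combinations of reduced differentials

Independent reductions of enough regular differentials span the regular differentials of the
special curve, so a logarithmic differential without poles is a combination of them.
-/

set_option autoImplicit false

noncomputable section

open AlgebraicCurve KaehlerDifferential ModularCurve Fermat.Agent.RED

namespace Fermat.Agent.LLp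

open Fermat.Agent.MF (thetaL thetaL_mul thetaL_single coeffMap_thetaL thetaL_coeff)
open Fermat.Agent.FF.KS (ddx ddx_spec)

variable {L k F Fb : Type*} [Field L] [Field k] [Field F] [Field Fb] [Algebra L F] [Algebra k Fb]
  {A : ValuationSubring L} {π : A →+* k} {D : ReductionDatum A π F Fb}
  {φ : F →ₐ[L] LaurentSeries L} {φb : Fb →ₐ[k] LaurentSeries k}
  [IsAlgClosed L] [IsCurveOver L F] [HasPrincipalDivisors L F] [IsAlgClosed k]
  [IsCurveOver k Fb] [FF.IsFunctionField k Fb]

/-- A logarithmic differential without poles is a combination of reduced differentials. -/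
theorem exists_comb_ddx_div (M : SeriesModel D φ φb) {j : F} {jb : Fb} {J : LaurentSeries A}
    (hJ : φ j = coeffMap A.subtype J) (hJb : φb jb = coeffMap π J)
    (hθ : thetaL (coeffMap π J) ≠ 0) {X : F} {Xb : Fb} {d : ℕ} (T : TwoCharts D X Xb d)
    {g : ℕ} (hgen : genusFF k Fb = g) {E : Divisor L F}
    (hE : ∀ P : Place L F, E P = P.ordDifferential (KaehlerDifferential.D L F j))
    (hdegE : Divisor.degree E = 2 * (g : ℤ) - 2) {n : ℕ} (hn : g ≤ n) (z : Fin n → F)
    (hz : ∀ i, z i ∈ riemannRochSpace E) (af : Fin n → ℕ → ℤ)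
    (hzs : ∀ i, φ (z i) * thetaL (φ j) = intSeries L (af i))
    (hli : LinearIndependent k fun i N => (af i N : k)) (p : ℕ) [CharP k p] {c : Fb} (hc : c ≠ 0)
    (hdiv : ∀ Q : Place k Fb, (p : ℤ) ∣ Q.ord c) :
    ∃ b : Fin n → k, thetaL (φb c) =
      φb c * ∑ i, algebraMap k (LaurentSeries k) (b i) * intSeries k (af i) := by
  classical
  have hjb := D_special_ne_zero hJb hθ
  have hW : coeffMap π (thetaL J) ≠ 0 := by rwa [coeffMap_thetaL]
  have hred : ∀ i, ∃ zb : Fb, D.Reduces (z i) zb ∧
      φb zb * thetaL (φb jb) = intSeries k (af i) := by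
    intro i
    obtain ⟨zb, hzb, he⟩ := M.of_series (z i) (thetaL J) (intSeries A (af i)) hW (by
      rw [coeffMap_thetaL, ← hJ, coeffMap_intSeries, hzs])
    refine ⟨zb, hzb, ?_⟩
    rwa [coeffMap_thetaL, ← hJb, coeffMap_intSeries] at he
  choose zb hzb hzbs using hred
  set Eb := Finsupp.mapDomain T.redPlace E with hEb'
  have hEb : ∀ Q : Place k Fb, Eb Q = Q.ordDifferential (KaehlerDifferential.D k Fb jb) :=
    fun Q => mapDomain_redPlace_ordDifferential M hJ hJb hθ T hE Q
  have hv := T.finite.coordGeneric.deg_one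
  have hw := T.finite.coordSpecial.deg_one
  have hdim : Module.finrank k (riemannRochSpace Eb) ≤ n := by
    refine (finrank_rr_le_genus ?_).trans (hgen.le.trans hn)
    rw [hEb', degree_mapDomain_place hv hw, hdegE, hgen]
  have hmem : ∀ i, zb i ∈ riemannRochSpace Eb := fun i =>
    mem_rr_of_reduces T.isPlaceReduction_redPlace (hz i) (hzb i)
  have hzli : LinearIndependent k zb := by
    rw [Fintype.linearIndependent_iff]
    intro b hb
    refine Fintype.linearIndependent_iff.mp hli b ?_
    have h1 : ∑ i, algebraMap k (LaurentSeries k) (b i) * intSeries k (af i) = 0 := by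
      have := congrArg (fun x => φb x * thetaL (φb jb)) hb
      simpa [Algebra.smul_def, Finset.sum_mul, mul_assoc, hzbs] using this
    funext N
    have h2 := congrArg (fun x : LaurentSeries k => x.coeff (N : ℤ)) h1
    simpa [intSeries, algebraMap_laurentSeries_eq_single, HahnSeries.ofPowerSeries_apply_coeff]
      using h2
  have hspan : Submodule.span k (Set.range zb) = riemannRochSpace Eb := by
    refine Submodule.eq_of_le_of_finrank_le (Submodule.span_le.mpr ?_) ?_
    · rintro _ ⟨i, rfl⟩
      exact hmem i
    · rw [finrank_span_eq_card hzli, Fintype.card_fin]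
      exact hdim
  have hc' := ddx_div_mem_rr p hw hjb hEb hc hdiv
  rw [← hspan, Submodule.mem_span_range_iff_exists_fun] at hc'
  obtain ⟨b, hb⟩ := hc'
  refine ⟨b, ?_⟩
  rw [thetaL_eq_ddx_mul (φ := φb) hjb c,
    show ddx hjb c = c * (ddx hjb c * c⁻¹) by field_simp, ← hb]
  simp only [map_mul, map_sum, Algebra.smul_def, AlgHom.commutes]
  rw [mul_assoc, Finset.sum_mul]
  congr 1
  exact Finset.sum_congr rfl fun i _ => by rw [mul_assoc, hzbs]

theorem thetaL_ofPowerSeries {R : Type*} [CommRing R] (u : PowerSeries R) :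
    thetaL (HahnSeries.ofPowerSeries ℤ R u) =
      HahnSeries.ofPowerSeries ℤ R (PowerSeries.X * PowerSeries.derivative R u) := by
  ext i
  rw [thetaL_coeff]
  rcases le_or_gt 0 i with hi | hi
  · lift i to ℕ using hi
    rw [HahnSeries.ofPowerSeries_apply_coeff, HahnSeries.ofPowerSeries_apply_coeff]
    rcases i with _ | i
    · simp
    · rw [PowerSeries.coeff_succ_X_mul, PowerSeries.coeff_derivative]
      push_cast
      ring
  · rw [ModularCurve.ofPowerSeries_coeff_of_neg _ hi, ModularCurve.ofPowerSeries_coeff_of_neg _ hi, mul_zero]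

/-- Reading off the coefficients from the identity `θ c = c S`. -/
theorem coeff_thetaLog_of_eq {R : Type*} [Field R] {m : ℤ} {a : R} (ha : a ≠ 0)
    {u s : PowerSeries R} (hu : PowerSeries.constantCoeff u = 1)
    (h : thetaL (HahnSeries.single m a * HahnSeries.ofPowerSeries ℤ R u) =
      HahnSeries.single m a * HahnSeries.ofPowerSeries ℤ R u * HahnSeries.ofPowerSeries ℤ R s)
    (hs : PowerSeries.constantCoeff s = 0) : thetaLog u = s := by
  have e : HahnSeries.ofPowerSeries ℤ R (u * (PowerSeries.C (m : R) + thetaLog u)) =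
      HahnSeries.ofPowerSeries ℤ R (u * s) := by
    refine mul_left_cancel₀ (HahnSeries.single_ne_zero ha : HahnSeries.single m a ≠ 0) ?_
    rw [map_mul _ u s, ← mul_assoc, ← h, thetaL_mul, thetaL_single, thetaL_ofPowerSeries,
      mul_add u, mul_thetaLog hu, map_add, map_mul _ u, HahnSeries.ofPowerSeries_C]
    have : HahnSeries.single m ((m : R) * a) = HahnSeries.C (m : R) * HahnSeries.single m a := by
      rw [HahnSeries.C_apply, HahnSeries.single_mul_single, zero_add]
    rw [this]
    ring
  have hu0 : u ≠ 0 := fun h0 => by simp [h0] at hu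
  have e' := mul_left_cancel₀ hu0 (HahnSeries.ofPowerSeries_injective e)
  have h0 := congrArg PowerSeries.constantCoeff e'
  have hlog : PowerSeries.constantCoeff (thetaLog u) = 0 := by simp [thetaLog]
  rw [map_add, PowerSeries.constantCoeff_C, hlog, add_zero, hs] at h0
  rwa [h0, map_zero, zero_add] at e'

end Fermat.Agent.LLp
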