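import Fermat.Agent.MOD.CuspCoeff
import Fermat.Agent.MF.IntStruct.Main
import Mathlib.LinearAlgebra.FreeModule.PID
import Mathlib.LinearAlgebra.Dual.Lemmas

/-!
# A basis of the integral lattice stays independent in characteristic `p`

The lattice of integral cusp forms is saturated, so the reductions of a basis are linearly
independent.
-/

set_option autoImplicit false

noncomputable section

open CongruenceSubgroup ModularFormClass

namespace Fermat.Agent.LLp

/-- An integral basis of weight two cusp forms with independent reductions modulo `p`. -/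
theorem exists_forms_linearIndependent_mod (M : ℕ) [NeZero M] (k : Type*) [Field k] (p : ℕ)
    [Fact p.Prime] [CharP k p] :
    ∃ (n : ℕ) (g : Fin n → CuspForm (Gamma0 M) 2) (af : Fin n → ℕ → ℤ),
      Module.finrank ℂ (CuspForm (Gamma0 M) 2) ≤ n ∧ (∀ i N, qCoeff (g i) N = af i N) ∧
      LinearIndependent k fun i N => (af i N : k) := by
  classical
  let L := CuspForm.intLattice M 2
  haveI : Module.Finite ℤ L := Module.Finite.iff_fg.mpr (CuspForm.intLattice_fg M 2)
  haveI : IsAddTorsionFree (CuspForm (Gamma0 M) 2) := by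
    refine ⟨fun n hn a b hab => smul_right_injective _ (Nat.cast_ne_zero.mpr hn : (n : ℂ) ≠ 0) ?_⟩
    simpa only [Nat.cast_smul_eq_nsmul] using hab
  haveI : Module.Free ℤ L := Module.free_of_finite_type_torsion_free'
  let b := Module.finBasis ℤ L
  choose af haf using fun i => (MOD.mem_intLattice_iff_qCoeff _).mp (b i).2
  refine ⟨Module.finrank ℤ L, fun i => (b i : CuspForm (Gamma0 M) 2), af, ?_, haf, ?_⟩
  · have hsp : Submodule.span ℂ (Set.range fun i => (b i : CuspForm (Gamma0 M) 2)) = ⊤ := by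
      rw [eq_top_iff, ← MF.IntStruct.hasIntegralStructure M 2, Submodule.span_le]
      intro x hx
      have e := congrArg Subtype.val (b.sum_repr ⟨x, hx⟩)
      simp only [Submodule.coe_sum, Submodule.coe_smul] at e
      rw [← e]
      refine Submodule.sum_mem _ fun i _ => ?_
      rw [← Int.cast_smul_eq_zsmul ℂ]
      exact Submodule.smul_mem _ _ (Submodule.subset_span ⟨i, rfl⟩)
    calc Module.finrank ℂ (CuspForm (Gamma0 M) 2)
        = Module.finrank ℂ (⊤ : Submodule ℂ (CuspForm (Gamma0 M) 2)) := (finrank_top ℂ _).symm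
      _ ≤ _ := by rw [← hsp]; exact (finrank_range_le_card _).trans (by simp)
  have key : ∀ c : Fin (Module.finrank ℤ L) → ℤ,
      (∀ N, (p : ℤ) ∣ ∑ i, c i * af i N) → ∀ i, (p : ℤ) ∣ c i := by
    intro c hc i
    have hp0 : (p : ℂ) ≠ 0 := by exact_mod_cast (Fact.out : p.Prime).ne_zero
    set x : L := ∑ i, c i • b i with hx
    have hy : ((p : ℂ)⁻¹ • (x : CuspForm (Gamma0 M) 2)) ∈ L := by
      refine (MOD.mem_intLattice_iff_qCoeff _).mpr fun N => ?_
      obtain ⟨d, hd⟩ := hc N
      refine ⟨d, ?_⟩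
      rw [← MOD.cuspCoeff_apply, map_smul, hx, Submodule.coe_sum, map_sum]
      have e : ∀ j, MOD.cuspCoeff M 2 N ((c j • b j : L) : CuspForm (Gamma0 M) 2) =
          ((c j * af j N : ℤ) : ℂ) := fun j => by
        rw [Submodule.coe_smul, map_zsmul, MOD.cuspCoeff_apply, haf, zsmul_eq_mul, Int.cast_mul]
      simp only [e]
      rw [← Int.cast_sum, hd, smul_eq_mul, Int.cast_mul, Int.cast_natCast]
      field_simp
    have hxy : x = (p : ℤ) • (⟨_, hy⟩ : L) := by
      apply Subtype.ext
      rw [Submodule.coe_smul, ← Int.cast_smul_eq_zsmul ℂ, Int.cast_natCast, smul_smul,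
        mul_inv_cancel₀ hp0, one_smul]
    refine ⟨b.repr ⟨_, hy⟩ i, ?_⟩
    have hr : b.repr (∑ j, c j • b j) i = b.repr ((p : ℤ) • (⟨_, hy⟩ : L)) i := by
      rw [← hxy]
    simp only [b.repr_sum_self, map_zsmul, Finsupp.smul_apply, smul_eq_mul] at hr
    exact hr
  rw [Fintype.linearIndependent_iff]
  intro c hc i
  letI := ZMod.algebra k p
  by_contra hne
  obtain ⟨ψ, hψ⟩ := Module.Projective.exists_dual_ne_zero (ZMod p) hne
  obtain ⟨z, hz⟩ : ∃ z : Fin (Module.finrank ℤ L) → ℤ, ∀ j, (z j : ZMod p) = ψ (c j) :=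
    ⟨fun j => ((ψ (c j)).val : ℤ), fun j => by simp⟩
  have hdvd := key z fun N => by
    rw [← ZMod.intCast_zmod_eq_zero_iff_dvd, Int.cast_sum]
    have := congrArg ψ (congrFun hc N)
    simp only [Finset.sum_apply, Pi.smul_apply, smul_eq_mul, map_sum, Pi.zero_apply, map_zero]
      at this
    rw [← this]
    refine Finset.sum_congr rfl fun j _ => ?_
    rw [show c j * (af j N : k) = (af j N : ℤ) • c j by rw [zsmul_eq_mul]; ring, map_zsmul,
      zsmul_eq_mul, Int.cast_mul, hz, mul_comm]
  exact hψ ((hz i).symm.trans ((ZMod.intCast_zmod_eq_zero_iff_dvd _ _).mpr (hdvd i)))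

end Fermat.Agent.LLp
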