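import Fermat.Agent.LLp.Diff.Eigen
import Fermat.Prelude.Def_ModularCurve_X0ModL
import Fermat.Agent.Galois.Places
import Fermat.Agent.LLp.Diff.Comb
import Fermat.Agent.LLp.Diff.LatticeRed
import Fermat.Agent.MF.CuspAssembly
import Fermat.Agent.MF.Genus.Main
import Fermat.Agent.RED.TorsionModular
import Fermat.Agent.RED.X0LiftAll

/-!
# Logarithmic differentials of characteristic `p` are reductions of cusp forms

If the divisor of a function `c` on `X₀(M)` in characteristic `p` is divisible by `p`, its
logarithmic differential is regular, hence the reduction of a weight two cusp form.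
-/

set_option autoImplicit false

noncomputable section

open AlgebraicCurve ModularCurve IsLocalRing CongruenceSubgroup

namespace Fermat.Agent.LLp

open Fermat.Agent.Galois (Qbar)

/-- The coefficients of `θ u / u`, for `c = a q ^ m u` with `u(0) = 1`, form a combination of
reductions of integral cusp forms of level `M`. -/
theorem isFormsComb_thetaLog {p M : ℕ} [NeZero M] (hp : p.Prime) (hpM : ¬ p ∣ M)
    {A : ValuationSubring Qbar} (hA : A.LiesOverPrime p)
    (c : modularFunctionFieldFullC (ResidueField A) M) (hc : c ≠ 0)
    (hdiv : ∀ v : Place (ResidueField A) (modularFunctionFieldFullC (ResidueField A) M),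
      (p : ℤ) ∣ v.ord c)
    {m : ℤ} {a : ResidueField A} {u : PowerSeries (ResidueField A)}
    (hu : PowerSeries.constantCoeff u = 1)
    (hcu : (c : LaurentSeries (ResidueField A)) =
      HahnSeries.single m a * HahnSeries.ofPowerSeries ℤ (ResidueField A) u) :
    IsFormsComb M fun N => PowerSeries.coeff N (thetaLog u) := by
  obtain ⟨n, T⟩ := RED.exists_twoCharts_x0 hp hpM hA (RED.x0Lift hp hpM hA)
  haveI := Galois.place_residueField_isAlgClosed A
  haveI := Galois.place_charP_residueField hA hp
  haveI : Fact p.Prime := ⟨hp⟩
  haveI hFL : FF.IsFunctionField Qbar (modularFunctionFieldBar M) :=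
    MF.Coeff.isFunctionField_laurentBaseChange Qbar M
  haveI hFk : FF.IsFunctionField (ResidueField A)
      (modularFunctionFieldFullC (ResidueField A) M) :=
    RED.isFunctionField_special M (RED.natCast_residue_ne_zero hp hpM hA)
  haveI : IsCurveOver Qbar (modularFunctionFieldBar M) := FF.instIsCurveOver
  haveI : IsCurveOver (ResidueField A) (modularFunctionFieldFullC (ResidueField A) M) :=
    FF.instIsCurveOver
  haveI : HasPrincipalDivisors Qbar (modularFunctionFieldBar M) := RED.hasPrincipalDivisors_bar M
  haveI := FF.IsFunctionField.essFiniteType (K := Qbar) (F := modularFunctionFieldBar M)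
  haveI : HasCanonicalDivisor (K := Qbar) (F := modularFunctionFieldBar M) := inferInstance
  set j := (S24.jDataBar M).j with hj
  have hjc : (j : LaurentSeries Qbar) = jqModC Qbar := rfl
  have htr := (S24.jDataBar M).transcendental_j
  haveI := FF.finiteDimensional_adjoin htr
  have hsep : FF.IsSeparatingElement Qbar j := ⟨htr, inferInstance⟩
  have hDj := FF.KS.D_ne_zero_of_isSeparatingElement hsep
  set E := canonicalDivisorOf hDj with hEdef
  have hE := canonicalDivisorOf_apply hDj
  set g := genusFF Qbar (modularFunctionFieldBar M) with hg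
  have hdegE : Divisor.degree E = 2 * (g : ℤ) - 2 := by
    rw [hEdef, FF.KS.canonicalDivisorOf_D hsep, hsep.degree_canonicalDiv]
  -- integral forms with independent reductions
  obtain ⟨r, f, af, hr, hf, hli⟩ := exists_forms_linearIndependent_mod M (ResidueField A) p
  have hgr : g ≤ r := by
    refine le_trans (le_of_eq ?_) hr
    rw [← Nat.cast_inj (R := ℚ), MF.finrank_cuspForm_eq_genusFormula,
      ← MF.Genus.genus_eq_genusFormula (S24.jDataBar M), FF.KS.genus_eq_genusFF, hg]
  choose z hzs hfin hinf using fun i => exists_regular_ratio (f i) (hf i)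
  have hz : ∀ i, z i ∈ riemannRochSpace E := fun i =>
    mem_rr_of_local_bounds hDj IsCurveOver.deg_eq_one_of_isAlgClosed hE (hfin i) (hinf i)
  have hθ : MF.thetaL (coeffMap (IsLocalRing.residue A) (jqModC A)) ≠ 0 := by
    intro h
    have := congrArg (fun x : LaurentSeries (ResidueField A) => x.coeff (-1)) h
    simp [coeffMap_jqModC, coeff_jqModC_neg_one] at this
  obtain ⟨b, hb⟩ := exists_comb_ddx_div
    (seriesModel_of_coefficientwise (RED.isCoefficientwise_x0Red hp hpM hA))
    (j := j) (jb := RED.jSpecial (k := ResidueField A) M) (J := jqModC A)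
    (hjc.trans (coeffMap_jqModC _).symm) (coeffMap_jqModC _).symm hθ T
    (RED.x0_genusFF_eq hp hpM hA (RED.x0Lift hp hpM hA)) hE hdegE hgr z hz af
    (fun i => by
      show (z i : LaurentSeries Qbar) * MF.thetaL (j : LaurentSeries Qbar) = _
      rw [hjc]
      exact hzs i) hli p hc hdiv
  have hb' : MF.thetaL (c : LaurentSeries (ResidueField A)) = (c : LaurentSeries (ResidueField A)) *
      ∑ i, algebraMap (ResidueField A) (LaurentSeries (ResidueField A)) (b i) *
        intSeries (ResidueField A) (af i) := hb
  set S : PowerSeries (ResidueField A) :=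
    PowerSeries.mk fun N => ∑ i, b i * (af i N : ResidueField A) with hS
  have hsum : ∑ i, algebraMap (ResidueField A) (LaurentSeries (ResidueField A)) (b i) *
      intSeries (ResidueField A) (af i) = HahnSeries.ofPowerSeries ℤ (ResidueField A) S := by
    have : S = ∑ i, PowerSeries.C (b i) *
        PowerSeries.mk fun N => (af i N : ResidueField A) := by
      ext N
      simp [hS]
    rw [this, map_sum]
    refine Finset.sum_congr rfl fun i _ => ?_
    rw [map_mul, HahnSeries.ofPowerSeries_C, intSeries, algebraMap_laurentSeries_eq_single,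
      HahnSeries.C_apply]
  have ha : a ≠ 0 := fun h => hc (Subtype.ext (by simp [hcu, h]))
  have hS0 : PowerSeries.constantCoeff S = 0 := by
    rw [← PowerSeries.coeff_zero_eq_constantCoeff_apply, hS, PowerSeries.coeff_mk]
    refine Finset.sum_eq_zero fun i _ => ?_
    have : af i 0 = 0 := Int.cast_injective (α := ℂ) (by
      simpa using (hf i 0).symm.trans (MOD.cuspCoeff_zero_index (f i)))
    simp [this]
  rw [hsum, hcu] at hb'
  refine ⟨r, f, af, b, hf, fun N => ?_⟩
  show PowerSeries.coeff N (thetaLog u) = _
  rw [coeff_thetaLog_of_eq ha hu hb' hS0, hS, PowerSeries.coeff_mk]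

end Fermat.Agent.LLp
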