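import Fermat.Agent.LLp.Series
import Fermat.Agent.MOD.CuspCoeff
import Fermat.Agent.LL.Residual.ModularLevel

/-!
# From a residual Hecke eigen series in the span of cusp forms to residual modularity

A nonzero series over a field of characteristic `p` which is a combination of reductions of
integral cusp forms of level `M` and satisfies the Hecke relations with the traces of `W` at
almost all primes gives a character of the Hecke algebra, hence residual modularity at level `M`.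
-/

set_option autoImplicit false

noncomputable section

open CongruenceSubgroup ModularFormClass

namespace Fermat.Agent.LLp

variable {M : ℕ} [NeZero M] {k : Type} [Field k]

/-- `h` is `k`-combination of reductions of integral cusp forms of weight two and level `M`. -/
def IsFormsComb (M : ℕ) [NeZero M] (h : ℕ → k) : Prop :=
  ∃ (n : ℕ) (g : Fin n → CuspForm (Gamma0 M) 2) (af : Fin n → ℕ → ℤ) (b : Fin n → k),
    (∀ j N, qCoeff (g j) N = af j N) ∧ ∀ N, h N = ∑ j, b j * (af j N : k)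

/-- `t` preserves the lattice and multiplies combinations proportional to `h` by `c`. -/
def ActsBy (h : ℕ → k) (t : Module.End ℂ (CuspForm (Gamma0 M) 2)) (c : k) : Prop :=
  ∀ (n : ℕ) (g : Fin n → CuspForm (Gamma0 M) 2) (af : Fin n → ℕ → ℤ) (b : Fin n → k) (μ : k),
    (∀ j N, qCoeff (g j) N = af j N) → (∀ N, ∑ j, b j * (af j N : k) = μ * h N) →
      ∃ af' : Fin n → ℕ → ℤ, (∀ j N, qCoeff (t (g j)) N = af' j N) ∧
        ∀ N, ∑ j, b j * (af' j N : k) = c * μ * h N

omit [NeZero M] in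
theorem ActsBy.unique {h : ℕ → k} (hcomb : ∃ (n : ℕ) (g : Fin n → CuspForm (Gamma0 M) 2)
      (af : Fin n → ℕ → ℤ) (b : Fin n → k),
      (∀ j N, qCoeff (g j) N = af j N) ∧ ∀ N, h N = ∑ j, b j * (af j N : k))
    (hne : ∃ N, h N ≠ 0) {t : Module.End ℂ (CuspForm (Gamma0 M) 2)} {c d : k}
    (hc : ActsBy h t c) (hd : ActsBy h t d) : c = d := by
  obtain ⟨n, g, af, b, hg, hh⟩ := hcomb
  obtain ⟨N, hN⟩ := hne
  obtain ⟨u, hu, hu'⟩ := hc n g af b 1 hg fun m => by rw [one_mul, hh m]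
  obtain ⟨v, hv, hv'⟩ := hd n g af b 1 hg fun m => by rw [one_mul, hh m]
  have huv : u = v := funext fun j => funext fun m =>
    Int.cast_injective (α := ℂ) ((hu j m).symm.trans (hv j m))
  subst huv
  refine mul_right_cancel₀ hN ?_
  rw [← mul_one c, ← mul_one d, ← hu', ← hv']

omit [NeZero M] in
theorem ActsBy.algebraMap (h : ℕ → k) (z : ℤ) :
    ActsBy h (algebraMap ℤ (Module.End ℂ (CuspForm (Gamma0 M) 2)) z) (z : k) := by
  intro n g af b μ hg hh
  refine ⟨fun j N => z * af j N, fun j N => ?_, fun N => ?_⟩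
  · rw [← MOD.cuspCoeff_apply, Module.algebraMap_end_apply, map_zsmul, MOD.cuspCoeff_apply, hg,
      zsmul_eq_mul, Int.cast_mul]
  · rw [mul_assoc, ← hh N, Finset.mul_sum]
    exact Finset.sum_congr rfl fun j _ => by push_cast; ring

omit [NeZero M] in
theorem ActsBy.add {h : ℕ → k} {s t : Module.End ℂ (CuspForm (Gamma0 M) 2)} {c d : k}
    (hs : ActsBy h s c) (ht : ActsBy h t d) : ActsBy h (s + t) (c + d) := by
  intro n g af b μ hg hh
  obtain ⟨u, hu, hu'⟩ := hs n g af b μ hg hh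
  obtain ⟨v, hv, hv'⟩ := ht n g af b μ hg hh
  refine ⟨fun j N => u j N + v j N, fun j N => ?_, fun N => ?_⟩
  · rw [← MOD.cuspCoeff_apply, LinearMap.add_apply, map_add, MOD.cuspCoeff_apply,
      MOD.cuspCoeff_apply, hu, hv, Int.cast_add]
  · rw [add_mul, add_mul, ← hu' N, ← hv' N, ← Finset.sum_add_distrib]
    exact Finset.sum_congr rfl fun j _ => by push_cast; ring

omit [NeZero M] in
theorem ActsBy.mul {h : ℕ → k} {s t : Module.End ℂ (CuspForm (Gamma0 M) 2)} {c d : k}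
    (hs : ActsBy h s c) (ht : ActsBy h t d) : ActsBy h (s * t) (c * d) := by
  intro n g af b μ hg hh
  obtain ⟨v, hv, hv'⟩ := ht n g af b μ hg hh
  obtain ⟨u, hu, hu'⟩ := hs n (fun j => t (g j)) v b (d * μ) hv fun N => hv' N
  exact ⟨u, hu, fun N => by rw [hu' N]; ring⟩

/-- The generator at a good prime. -/
theorem actsBy_heckeTLin {h : ℕ → k} {ℓ : ℕ} (hℓ : ℓ.Prime) (hℓM : ¬ ℓ ∣ M) {a : k}
    (hrel : ∀ N, h (N * ℓ) + (if ℓ ∣ N then (ℓ : k) * h (N / ℓ) else 0) = a * h N) :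
    ActsBy h (CuspForm.heckeTLin 2 hℓ hℓM : Module.End ℂ (CuspForm (Gamma0 M) 2)) a := by
  intro n g af b μ hg hh
  refine ⟨fun j N => af j (N * ℓ) + if ℓ ∣ N then (ℓ : ℤ) * af j (N / ℓ) else 0, fun j N => ?_,
    fun N => ?_⟩
  · rw [ MOD.qCoeff_heckeTLin hℓ hℓM, hg, hg, show (2 : ℤ) - 1 = 1 by norm_num, zpow_one]
    by_cases hN : ℓ ∣ N <;> simp [hN]
  · have e : ∑ j, b j * (((af j (N * ℓ) + if ℓ ∣ N then (ℓ : ℤ) * af j (N / ℓ) else 0 : ℤ)) : k) =
        μ * (h (N * ℓ) + if ℓ ∣ N then (ℓ : k) * h (N / ℓ) else 0) := by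
      by_cases hN : ℓ ∣ N
      · simp only [if_pos hN, Int.cast_add, Int.cast_mul, Int.cast_natCast, mul_add,
          Finset.sum_add_distrib, hh]
        rw [show μ * ((ℓ : k) * h (N / ℓ)) = (ℓ : k) * (μ * h (N / ℓ)) by ring, ← hh (N / ℓ),
          Finset.mul_sum]
        congr 1
        exact Finset.sum_congr rfl fun j _ => by ring
      · simp only [if_neg hN, add_zero, hh]
    rw [e, hrel]
    ring

/-- A residual eigen series gives residual modularity. -/
theorem isResiduallyModularOfLevel_of_series (h29 : CondLevel.ResidualAttachment)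
    (W : WeierstrassCurve ℤ) (hΔ : W.Δ ≠ 0) (p : ℕ) [Fact p.Prime] [CharP k p]
    (S₀ : Finset ℕ) (hSM : ∀ q ∈ M.primeFactors, q ∈ S₀) (h : ℕ → k) (hcomb : IsFormsComb M h)
    (hne : ∃ N, h N ≠ 0)
    (hrel : ∀ ℓ : ℕ, ℓ.Prime → ℓ ∉ S₀ → ∀ N,
      h (N * ℓ) + (if ℓ ∣ N then (ℓ : k) * h (N / ℓ) else 0) =
        ((W.apOfModel ℓ : ℤ) : k) * h N) :
    W.IsResiduallyModularOfLevel p M := by
  classical
  have hgen : ∀ t ∈ CuspForm.heckeGenerators M 2 (↑S₀ : Set ℕ), ∃ c : k, ActsBy h t c := by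
    rintro t (⟨ℓ, hℓ, hℓM, hℓS, rfl⟩ | ⟨q, hqM, hq, hqS, rfl⟩)
    · exact ⟨_, actsBy_heckeTLin hℓ hℓM (hrel ℓ hℓ fun h' => hℓS h')⟩
    · exact absurd (hSM q (Nat.mem_primeFactors.mpr ⟨hq, hqM, NeZero.ne M⟩)) fun h' => hqS h'
  have hall : ∀ t ∈ CuspForm.heckeAlgebra M 2 (↑S₀ : Set ℕ), ∃ c : k, ActsBy h t c := by
    intro t ht
    unfold CuspForm.heckeAlgebra at ht
    induction ht using Algebra.adjoin_induction with
    | mem x hx => exact hgen x hx
    | algebraMap z => exact ⟨_, ActsBy.algebraMap h z⟩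
    | add x y _ _ hx hy => exact ⟨_, hx.choose_spec.add hy.choose_spec⟩
    | mul x y _ _ hx hy => exact ⟨_, hx.choose_spec.mul hy.choose_spec⟩
  choose c hc using hall
  have huniq : ∀ {t : Module.End ℂ (CuspForm (Gamma0 M) 2)}
      (ht : t ∈ CuspForm.heckeAlgebra M 2 (↑S₀ : Set ℕ)) {d : k},
      ActsBy h t d → c t ht = d := fun {t} ht {d} hd => (hc _ ht).unique hcomb hne hd
  let θ : CuspForm.heckeAlgebra M 2 (↑S₀ : Set ℕ) →+* k :=
    { toFun := fun t => c t.1 t.2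
      map_one' := huniq _ (by simpa using ActsBy.algebraMap h 1)
      map_zero' := huniq _ (by simpa using ActsBy.algebraMap h 0)
      map_add' := fun s t => huniq _ ((hc s.1 s.2).add (hc t.1 t.2))
      map_mul' := fun s t => huniq _ ((hc s.1 s.2).mul (hc t.1 t.2)) }
  exact LL.isResiduallyModularOfLevel_of_heckeHom h29 W hΔ p θ S₀ (fun ℓ hℓ => hℓ)
    fun ℓ hℓ hℓM _ _ hℓS _ => huniq _ (actsBy_heckeTLin hℓ hℓM (hrel ℓ hℓ hℓS))

end Fermat.Agent.LLp
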