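import Fermat.Agent.LLp.Diff.ThetaDer
import Fermat.Agent.RED.PlaceReductionGlobal
import Fermat.Agent.FF.RiemannRoch
import Fermat.Agent.FF.KaehlerOrd

/-!
# Specialisation of the divisor of `dj`

For a chart, the divisor of `d j̄` is the specialisation of the divisor of `dj`: if `t` lifts a
uniformiser at `Q`, then `t - t(P)` is a uniformiser at every place `P` above `Q`, so both divisors
are computed by `dj/dt`, which reduces to `dj̄/dt̄`.
-/

set_option autoImplicit false

noncomputable section

open AlgebraicCurve KaehlerDifferential ModularCurve Fermat.Agent.RED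

namespace Fermat.Agent.LLp

open Fermat.Agent.MF (thetaL)
open Fermat.Agent.FF.KS (ddx ddx_spec)

section RiemannRoch

variable {K F : Type*} [Field K] [Field F] [Algebra K F] [IsAlgClosed K] [FF.IsFunctionField K F]

/-- A divisor of degree `2g - 2` has at most `g` independent sections. -/
theorem finrank_rr_le_genus {E : Divisor K F}
    (hE : Divisor.degree E = 2 * (genusFF K F : ℤ) - 2) :
    Module.finrank K (riemannRochSpace E) ≤ genusFF K F := by
  obtain ⟨W, hW, -, -, hRR⟩ := FF.riemannRoch K F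
  have h1 : Module.finrank K (riemannRochSpace (W - E)) ≤ 1 := by
    rcases Nat.eq_zero_or_pos (Module.finrank K (riemannRochSpace (W - E))) with h | h
    · omega
    obtain ⟨f, E', hf, hE', hdeg, hle⟩ := FF.exists_le_of_rrDim_pos (G := W - E) h
    have h0 : (0 : Divisor K F) = W - E + E' :=
      FF.eq_of_le_of_degree_le hle (by rw [map_add, map_sub, hdeg, hW, hE, map_zero]; omega)
    have heq : W - E = 0 - E' := by rw [zero_sub]; exact eq_neg_of_add_eq_zero_left h0.symm
    rw [heq, FF.finrank_riemannRochSpace_sub_principal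
      (show E' ∈ Divisor.principal (K := K) (F := F) from ⟨f, hf, hE'⟩)]
    exact le_of_eq FF.rrDim_zero_eq_one
  have h2 := hRR E
  omega

end RiemannRoch

variable {L k F Fb : Type*} [Field L] [Field k] [Field F] [Field Fb] [Algebra L F] [Algebra k Fb]
  {A : ValuationSubring L} {π : A →+* k} {D : ReductionDatum A π F Fb}

/-- Transport of a divisor to the special curve keeps its degree. -/
theorem degree_mapDomain_place {r : Place L F → Place k Fb} (hv : ∀ P : Place L F, P.deg = 1)
    (hw : ∀ Q : Place k Fb, Q.deg = 1) (E : Divisor L F) :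
    Divisor.degree (Finsupp.mapDomain r E) = Divisor.degree E := by
  induction E using Finsupp.induction with
  | zero => simp
  | single_add P m D' _ _ ih =>
    rw [Finsupp.mapDomain_add, map_add, map_add, ih, Finsupp.mapDomain_single,
      Divisor.degree_single, Divisor.degree_single, hw, hv]

/-- A place reduction sends sections to sections. -/
theorem mem_rr_of_reduces [HasPrincipalDivisors L F] {r : Place L F → Place k Fb}
    (hr : IsPlaceReduction D r) {E : Divisor L F} {z : F} (hz : z ∈ riemannRochSpace E) {zb : Fb}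
    (hred : D.Reduces z zb) : zb ∈ riemannRochSpace (Finsupp.mapDomain r E) := by
  rw [mem_riemannRochSpace_iff] at hz ⊢
  intro Q
  rcases eq_or_ne zb 0 with h0 | h0
  · exact Or.inl h0
  refine Or.inr ?_
  obtain ⟨Ez, hEz⟩ := exists_isDivisorOf (L := L) (hred.ne_zero h0)
  have h1 := hr z zb hred h0 Ez hEz Q
  have h2 : 0 ≤ Finsupp.mapDomain r (E + Ez) Q := by
    rw [mapDomain_apply_eq_sumOver]
    refine sumOver_nonneg fun P _ => ?_
    have h3 := (hz P).resolve_left (hred.ne_zero h0)
    rw [Finsupp.add_apply, hEz P]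
    omega
  rw [Finsupp.mapDomain_add, Finsupp.add_apply, h1] at h2
  omega

variable {φ : F →ₐ[L] LaurentSeries L} {φb : Fb →ₐ[k] LaurentSeries k}
  [IsAlgClosed L] [IsCurveOver L F] [IsCurveOver k Fb]
  (M : SeriesModel D φ φb) {j : F} {jb : Fb} {J : LaurentSeries A}
  (hJ : φ j = coeffMap A.subtype J) (hJb : φb jb = coeffMap π J)
  (hθ : thetaL (coeffMap π J) ≠ 0)

include hJ hθ in
omit [IsAlgClosed L] [IsCurveOver L F] [IsCurveOver k Fb] in
theorem D_generic_ne_zero : KaehlerDifferential.D L F j ≠ 0 := by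
  refine D_ne_zero_of_thetaL (φ := φ) ?_
  rw [hJ, ← MF.coeffMap_thetaL]
  intro h
  have h0 : thetaL J = 0 :=
    coeffMap_subtype_injective (A := A) (L := L) (h.trans (map_zero _).symm)
  exact hθ (by rw [← MF.coeffMap_thetaL, h0, map_zero])

include hJb hθ in
omit [IsAlgClosed L] [IsCurveOver L F] [IsCurveOver k Fb] in
theorem D_special_ne_zero : KaehlerDifferential.D k Fb jb ≠ 0 :=
  D_ne_zero_of_thetaL (φ := φb) (by rw [hJb]; exact hθ)

include M hJ hJb hθ in
/-- On a chart, the divisor of `dj̄` is the specialisation of the divisor of `dj`. -/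
theorem sumOver_ordDifferential {X : F} {Xb : Fb} {n : ℕ} (h : ReductionChart D X Xb n)
    {E : Divisor L F} (hE : ∀ P : Place L F, E P = P.ordDifferential (KaehlerDifferential.D L F j))
    {Q : Place k Fb} (hQ : Xb ∈ Q.toValuationSubring) :
    sumOver (Specializes D X Xb · Q) E = Q.ordDifferential (KaehlerDifferential.D k Fb jb) := by
  have hv := h.coordGeneric.deg_one
  have hQd := h.coordSpecial.deg_one Q
  have hj := D_generic_ne_zero hJ hθ
  have hjb := D_special_ne_zero hJb hθ
  obtain ⟨tb, htb, htb1⟩ := h.coordSpecial.exists_ord_one Q hQ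
  obtain ⟨t, ht, htr⟩ := h.lift tb htb
  have htb0 : tb ≠ 0 := fun e => by simp [e] at htb1
  have hne1 : ((Q.ord tb : ℤ) : k) ≠ 0 := by rw [htb1, Int.cast_one]; exact one_ne_zero
  have hDtb := FF.KS.D_ne_zero_of_ord hQd hne1
  have hordtb := FF.KS.ordDifferential_D_eq hQd hne1
  set w := ddx hjb tb with hw
  have hw0 : w ≠ 0 := fun e => hDtb (by rw [ddx_spec hjb tb, ← hw, e, zero_smul])
  have hred : D.Reduces (ddx hj t) w := M.reduces_ddx hJ hJb hθ hj hjb htr
  have hinv := hred.inv hw0
  have hg0 : ddx hj t ≠ 0 := hred.ne_zero hw0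
  -- the special side
  have hspec : Q.ordDifferential (KaehlerDifferential.D k Fb jb) = Q.ord w⁻¹ := by
    have he : KaehlerDifferential.D k Fb jb = w⁻¹ • KaehlerDifferential.D k Fb tb := by
      rw [ddx_spec hjb tb, smul_smul, ← hw, inv_mul_cancel₀ hw0, one_smul]
    rw [he, FF.KS.ordDifferential_smul' hQd (inv_ne_zero hw0) hDtb, hordtb, htb1]
    ring
  -- the generic side
  have hgen : ∀ P, Specializes D X Xb P Q → E P = P.ord (ddx hj t)⁻¹ := by
    intro P hP
    have htP := h.mem_place hP.1 ht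
    set α : A := ⟨pval P t, h.pval_mem hP.1 ht⟩ with hα
    have hπα : π α = 0 := by
      rw [← hP.2.2 t ht tb htr α rfl]
      exact (pval_eq_zero_iff hQd (mem_place_of_mem_coordRing k Xb Q hQ htb)).mpr
        (Or.inr (by omega))
    have hsub : D.Reduces (t - algebraMap L F α) tb := by
      have := htr.sub (D.reduces_algebraMap α)
      rwa [hπα, map_zero, sub_zero] at this
    have hy0 := hsub.ne_zero htb0
    obtain ⟨Es, hEs⟩ := exists_isDivisorOf (L := L) hy0
    have hsum := h.orderPreserved hsub htb0 Es hEs Q hQ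
    have hpos : 0 < P.ord (t - algebraMap L F α) :=
      (pval_sub_algebraMap (hv P) htP).resolve_left hy0
    have hle := le_sumOver (D := Es) (p := (Specializes D X Xb · Q)) (fun P' hP' => by
      rw [hEs P']
      exact ord_nonneg_of_mem P' (sub_mem (h.mem_place hP'.1 ht) (P'.algebraMap_mem' _))) hP
    rw [hsum, htb1, hEs P] at hle
    have hone : P.ord (t - algebraMap L F α) = 1 := by omega
    have hne : ((P.ord (t - algebraMap L F α) : ℤ) : L) ≠ 0 := by
      rw [hone, Int.cast_one]; exact one_ne_zero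
    have hD : KaehlerDifferential.D L F (t - algebraMap L F α) = KaehlerDifferential.D L F t := by
      rw [map_sub, Derivation.map_algebraMap, sub_zero]
    have hDt := FF.KS.D_ne_zero_of_ord (hv P) hne
    have hordt := FF.KS.ordDifferential_D_eq (hv P) hne
    rw [hD] at hDt hordt
    have he : KaehlerDifferential.D L F j = (ddx hj t)⁻¹ • KaehlerDifferential.D L F t := by
      rw [ddx_spec hj t, smul_smul, inv_mul_cancel₀ hg0, one_smul]
    rw [hE P, he, FF.KS.ordDifferential_smul' (hv P) (inv_ne_zero hg0) hDt, hordt, hone]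
    ring
  obtain ⟨Eh, hEh⟩ := exists_isDivisorOf (L := L) (inv_ne_zero hg0)
  rw [hspec, ← h.orderPreserved hinv (inv_ne_zero hw0) Eh hEh Q hQ, ← sub_eq_zero, ← map_sub]
  exact sumOver_eq_zero fun P hP => by rw [Finsupp.sub_apply, hgen P hP, hEh P, sub_self]

include M hJ hJb hθ in
/-- The divisor of `dj̄` is the image of the divisor of `dj`. -/
theorem mapDomain_redPlace_ordDifferential {X : F} {Xb : Fb} {n : ℕ} (T : TwoCharts D X Xb n)
    {E : Divisor L F} (hE : ∀ P : Place L F, E P = P.ordDifferential (KaehlerDifferential.D L F j))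
    (Q : Place k Fb) :
    Finsupp.mapDomain T.redPlace E Q = Q.ordDifferential (KaehlerDifferential.D k Fb jb) := by
  rw [mapDomain_apply_eq_sumOver]
  by_cases hQ : Xb ∈ Q.toValuationSubring
  · rw [sumOver_congr fun P _ => T.redPlace_eq_iff hQ]
    exact sumOver_ordDifferential M hJ hJb hθ T.finite hE hQ
  · rw [sumOver_congr fun P _ => T.redPlace_eq_iff_inv hQ]
    exact sumOver_ordDifferential M hJ hJb hθ T.infinite hE
      ((Q.toValuationSubring.mem_or_inv_mem Xb).resolve_left hQ)

omit [IsAlgClosed L] [IsCurveOver L F] in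
/-- If the divisor of `c` is divisible by `p`, then `c'/c` is a section of the divisor of `dj̄`. -/
theorem ddx_div_mem_rr (p : ℕ) [CharP k p] (hdeg : ∀ Q : Place k Fb, Q.deg = 1)
    (hjb : KaehlerDifferential.D k Fb jb ≠ 0) {Eb : Divisor k Fb}
    (hEb : ∀ Q : Place k Fb, Eb Q = Q.ordDifferential (KaehlerDifferential.D k Fb jb))
    {c : Fb} (hc : c ≠ 0) (hdiv : ∀ Q : Place k Fb, (p : ℤ) ∣ Q.ord c) :
    ddx hjb c * c⁻¹ ∈ riemannRochSpace Eb := by
  rw [mem_riemannRochSpace_iff]
  intro Q
  rcases eq_or_ne (ddx hjb c) 0 with h0 | h0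
  · exact Or.inl (by rw [h0, zero_mul])
  refine Or.inr ?_
  have hDc : KaehlerDifferential.D k Fb c ≠ 0 := by
    rw [ddx_spec hjb c]
    exact smul_ne_zero h0 hjb
  have hsum : Q.ordDifferential (KaehlerDifferential.D k Fb c) = Q.ord (ddx hjb c) + Eb Q := by
    rw [ddx_spec hjb c, FF.KS.ordDifferential_smul' (hdeg Q) h0 hjb, hEb Q]
  obtain ⟨t⟩ := FF.KS.exists_coord (hdeg Q)
  obtain ⟨r, hr⟩ := hdiv Q
  have hπ0 : (t.π : Fb) ≠ 0 := t.coe_π_ne_zero
  set y := ((t.π : Fb) ^ r) ^ p with hy
  have hy0 : y ≠ 0 := pow_ne_zero _ (zpow_ne_zero _ hπ0)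
  have hyord : Q.ord y = Q.ord c := by
    rw [hy, ord_pow' Q (zpow_ne_zero _ hπ0), Q.ord_zpow, t.ord_π, mul_one, hr]
  have hDy : KaehlerDifferential.D k Fb y = 0 := by
    have hp : (p : Fb) = 0 := by
      rw [← map_natCast (algebraMap k Fb), CharP.cast_eq_zero, map_zero]
    rw [hy, Derivation.leibniz_pow, ← Nat.cast_smul_eq_nsmul Fb, hp, zero_smul]
  set e := c * y⁻¹ with he
  have he0 : e ≠ 0 := mul_ne_zero hc (inv_ne_zero hy0)
  have heord : Q.ord e = 0 := by
    rw [he, Q.ord_mul hc (inv_ne_zero hy0), Q.ord_inv, hyord]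
    ring
  have heO : e ∈ Q.toValuationSubring := mem_of_ord_nonneg Q heord.ge
  have hDce : KaehlerDifferential.D k Fb c = y • KaehlerDifferential.D k Fb e := by
    conv_lhs => rw [show c = y * e by rw [he]; field_simp]
    rw [Derivation.leibniz, hDy, smul_zero, add_zero]
  have hDe : KaehlerDifferential.D k Fb e ≠ 0 := fun e0 => hDc (by rw [hDce, e0, smul_zero])
  have hle := FF.KS.ordDifferential_D_nonneg (hdeg Q) heO hDe
  rw [hDce, FF.KS.ordDifferential_smul' (hdeg Q) hy0 hDe, hyord] at hsum
  rw [Q.ord_mul h0 (inv_ne_zero hc), Q.ord_inv]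
  omega

end Fermat.Agent.LLp
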