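import Fermat.Agent.FF.KaehlerCanonical
import Fermat.Agent.MF.ThetaJ
import Fermat.Agent.RED.PlaceReductionModular
import Fermat.Agent.RED.GaussPair

/-!
# The theta operator on fields of Laurent series and its compatibility with reduction

`θ = q d/dq` is a derivation of a field of Laurent series, hence is proportional to the derivation
`d/dj`. For a coefficientwise reduction, `d/dj` commutes with reduction.
-/

set_option autoImplicit false

noncomputable section

open AlgebraicCurve KaehlerDifferential ModularCurve Fermat.Agent.RED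

namespace Fermat.Agent.LLp

open Fermat.Agent.MF (thetaL thetaL_mul thetaL_single coeffMap_thetaL)
open Fermat.Agent.FF.KS (ddx ddx_spec)

section Field

variable {K F : Type*} [Field K] [Field F] [Algebra K F] (φ : F →ₐ[K] LaurentSeries K)

/-- Laurent series as an algebra over `F` through `φ`. -/
def ThetaVal (_φ : F →ₐ[K] LaurentSeries K) : Type _ := LaurentSeries K

instance : CommRing (ThetaVal φ) := inferInstanceAs (CommRing (LaurentSeries K))

instance : Algebra K (ThetaVal φ) := RingHom.toAlgebra (algebraMap K (LaurentSeries K))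

instance : Algebra F (ThetaVal φ) := RingHom.toAlgebra φ.toRingHom

instance : IsScalarTower K F (ThetaVal φ) :=
  IsScalarTower.of_algebraMap_eq fun c => (φ.commutes c).symm

/-- A series as an element of `ThetaVal φ`. -/
def thetaMk (x : LaurentSeries K) : ThetaVal φ := x

/-- The series underlying an element of `ThetaVal φ`. -/
def thetaOut (x : ThetaVal φ) : LaurentSeries K := x

theorem thetaOut_smul (f : F) (x : ThetaVal φ) :
    thetaOut φ (f • x) = φ f * thetaOut φ x := rfl

/-- `θ` as a derivation of `F` with values in series. -/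
def thetaDer : Derivation K F (ThetaVal φ) :=
  Derivation.mk'
    { toFun := fun f => thetaMk φ (thetaL (φ f))
      map_add' := fun f g => by
        show thetaL (φ (f + g)) = thetaL (φ f) + thetaL (φ g)
        rw [map_add, map_add]
      map_smul' := fun c f => by
        show thetaL (φ (c • f)) = algebraMap K (LaurentSeries K) c * thetaL (φ f)
        rw [Algebra.smul_def, map_mul, φ.commutes, thetaL_mul,
          algebraMap_laurentSeries_eq_single, thetaL_single, Int.cast_zero, zero_mul,
          HahnSeries.single_eq_zero, zero_mul, zero_add] }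
    fun f g => by
      show thetaL (φ (f * g)) = φ f * thetaL (φ g) + φ g * thetaL (φ f)
      rw [map_mul, thetaL_mul]
      ring

theorem thetaOut_thetaDer (f : F) : thetaOut φ (thetaDer φ f) = thetaL (φ f) := rfl

variable {φ}

theorem D_ne_zero_of_thetaL {j : F} (hj : thetaL (φ j) ≠ 0) : D K F j ≠ 0 := by
  intro h
  refine hj ?_
  rw [← thetaOut_thetaDer φ j, ← Derivation.liftKaehlerDifferential_comp_D (thetaDer φ) j, h,
    map_zero]
  rfl

/-- `θ f = (df/dj) θ j`. -/
theorem thetaL_eq_ddx_mul [IsCurveOver K F] {j : F} (hj : D K F j ≠ 0) (f : F) :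
    thetaL (φ f) = φ (ddx hj f) * thetaL (φ j) := by
  have h4 := congrArg (thetaOut φ ∘ (thetaDer φ).liftKaehlerDifferential) (ddx_spec hj f)
  simpa only [Function.comp_apply, map_smul, Derivation.liftKaehlerDifferential_comp_D,
    thetaOut_smul, thetaOut_thetaDer] using h4

end Field

section Generic

variable {L k F Fb : Type*} [Field L] [Field k] [Field F] [Field Fb] [Algebra L F] [Algebra k Fb]
  {A : ValuationSubring L} {π : A →+* k}

/-- A reduction of fields of series induced by the reduction of coefficients. -/
structure SeriesModel (D : ReductionDatum A π F Fb) (φ : F →ₐ[L] LaurentSeries L)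
    (φb : Fb →ₐ[k] LaurentSeries k) : Prop where
  frac : ∀ f g, D.Reduces f g → ∃ Y Z : LaurentSeries A, coeffMap π Z ≠ 0 ∧
    φ f * coeffMap A.subtype Z = coeffMap A.subtype Y ∧ φb g * coeffMap π Z = coeffMap π Y
  of_series : ∀ (f : F) (W V : LaurentSeries A), coeffMap π W ≠ 0 →
    φ f * coeffMap A.subtype W = coeffMap A.subtype V →
      ∃ g, D.Reduces f g ∧ φb g * coeffMap π W = coeffMap π V

variable {D : ReductionDatum A π F Fb} {φ : F →ₐ[L] LaurentSeries L}
  {φb : Fb →ₐ[k] LaurentSeries k}

/-- `d/dj` commutes with reduction. -/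
theorem SeriesModel.reduces_ddx (M : SeriesModel D φ φb) [IsCurveOver L F] [IsCurveOver k Fb]
    {j : F} {jb : Fb} {J : LaurentSeries A} (hJ : φ j = coeffMap A.subtype J)
    (hJb : φb jb = coeffMap π J) (hθ : thetaL (coeffMap π J) ≠ 0)
    (hj : KaehlerDifferential.D L F j ≠ 0) (hjb : KaehlerDifferential.D k Fb jb ≠ 0)
    {f : F} {g : Fb} (hfg : D.Reduces f g) : D.Reduces (ddx hj f) (ddx hjb g) := by
  obtain ⟨Y, Z, hZ0, hfzL, hgzL⟩ := M.frac f g hfg
  set W := thetaL J * Z * Z with hW
  set V := thetaL Y * Z - Y * thetaL Z with hV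
  have hL : φ (ddx hj f) * coeffMap A.subtype W = coeffMap A.subtype V := by
    simp only [hW, hV, map_mul, map_sub, coeffMap_thetaL, ← hJ, ← hfzL]
    rw [thetaL_mul, thetaL_eq_ddx_mul (φ := φ) hj f]
    ring
  have hk : φb (ddx hjb g) * coeffMap π W = coeffMap π V := by
    simp only [hW, hV, map_mul, map_sub, coeffMap_thetaL, ← hJb, ← hgzL]
    rw [thetaL_mul, thetaL_eq_ddx_mul (φ := φb) hjb g]
    ring
  have hW0 : coeffMap π W ≠ 0 := by
    simp only [hW, map_mul, coeffMap_thetaL]
    exact mul_ne_zero (mul_ne_zero hθ hZ0) hZ0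
  obtain ⟨g', hg', hg'W⟩ := M.of_series _ W V hW0 hL
  have : g' = ddx hjb g := φb.injective (mul_right_cancel₀ hW0 (hg'W.trans hk.symm))
  exact this ▸ hg'

end Generic

section Reduction

variable {L : Type*} [Field L] [Algebra ℚ L] {A : ValuationSubring L}
variable {k : Type*} [Field k] {π : A →+* k} {N : ℕ}
variable {D : ReductionDatum A π (laurentBaseChange L (modularFunctionFieldFull N))
  (modularFunctionFieldFullC k N)}

/-- A function which is a quotient of two integral series, the denominator having nonzero
reduction, reduces to the quotient of the reductions. -/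
theorem reduces_of_series (hD : IsCoefficientwise D)
    {f : laurentBaseChange L (modularFunctionFieldFull N)} {W V : LaurentSeries A}
    (hW : coeffMap π W ≠ 0)
    (h : (f : LaurentSeries L) * coeffMap A.subtype W = coeffMap A.subtype V) :
    ∃ g : modularFunctionFieldFullC k N, D.Reduces f g ∧
      (g : LaurentSeries k) * coeffMap π W = coeffMap π V := by
  have hinj := coeffMap_subtype_injective (A := A) (L := L)
  rcases eq_or_ne f 0 with rfl | hf
  · have hV : V = 0 := hinj (by rw [← h, map_zero]; simp)
    exact ⟨0, D.reduces_zero, by simp [hV]⟩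
  obtain ⟨c, g, hc, hg, hred⟩ := D.exists_scale hf
  obtain ⟨Y, Z, hY, hZ, gY, gZ, hgY, hgZ, hgZ0, -, -, hfz, hgz⟩ := hD.exists_frac hred
  have hgzL : (g : LaurentSeries k) * coeffMap π Z = coeffMap π Y := by
    rw [← hgY, ← hgZ, ← IntermediateField.coe_mul, hgz]
  have hZ0 : coeffMap π Z ≠ 0 := fun e => hgZ0 (Subtype.ext (hgZ.trans e))
  have hfzL : algebraMap L (LaurentSeries L) c * (f : LaurentSeries L) * coeffMap A.subtype Z =
      coeffMap A.subtype Y := by
    have := congrArg Subtype.val hfz
    simpa only [IntermediateField.coe_mul, IntermediateField.coe_algebraMap_apply] using this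
  have hsingle : ∀ a : A, coeffMap A.subtype (HahnSeries.single 0 a) =
      algebraMap L (LaurentSeries L) a := fun a => by
    rw [coeffMap_single, algebraMap_laurentSeries_eq_single]
    rfl
  have hsingle' : ∀ a : A, coeffMap π (HahnSeries.single 0 a) =
      algebraMap k (LaurentSeries k) (π a) := fun a => by
    rw [coeffMap_single, algebraMap_laurentSeries_eq_single]
  by_cases hcA : c ∈ A
  · have key : HahnSeries.single 0 (⟨c, hcA⟩ : A) * V * Z = Y * W := hinj (by
      rw [map_mul, map_mul, map_mul, hsingle, ← h, ← hfzL]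
      ring)
    have key' := congrArg (coeffMap π) key
    rw [map_mul, map_mul, map_mul, hsingle', ← hgzL] at key'
    have hgW : (g : LaurentSeries k) * coeffMap π W =
        algebraMap k (LaurentSeries k) (π ⟨c, hcA⟩) * coeffMap π V := by
      refine mul_right_cancel₀ hZ0 ?_
      rw [key']
      ring
    have hπc : π ⟨c, hcA⟩ ≠ 0 := fun e => by
      rw [e, map_zero, zero_mul, mul_eq_zero] at hgW
      exact hgW.elim (fun e' => hg (Subtype.ext e')) hW
    have hu : IsUnit (⟨c, hcA⟩ : A) := not_not.mp ((D.π_eq_zero_iff _).not.mp hπc)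
    obtain ⟨d, hd⟩ := hu.exists_left_inv
    refine ⟨algebraMap k _ (π d) * g, ?_, ?_⟩
    · have h1 := (D.reduces_algebraMap d).mul hred
      rwa [← mul_assoc, ← map_mul, show (d : L) * c = 1 from congrArg Subtype.val hd, map_one,
        one_mul] at h1
    · rw [IntermediateField.coe_mul, IntermediateField.coe_algebraMap_apply, mul_assoc, hgW,
        ← mul_assoc, ← map_mul, ← map_mul, hd, map_one, map_one, one_mul]
  · have hc' : c⁻¹ ∈ A := (A.mem_or_inv_mem c).resolve_left hcA
    have hπ : π ⟨c⁻¹, hc'⟩ = 0 := by
      rw [D.π_eq_zero_iff]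
      intro hu
      obtain ⟨b, hb⟩ := hu.exists_right_inv
      have hb' : c⁻¹ * (b : L) = 1 := congrArg Subtype.val hb
      rw [inv_mul_eq_one₀ hc] at hb'
      exact hcA (hb'.symm ▸ b.2)
    have key : V * Z = HahnSeries.single 0 (⟨c⁻¹, hc'⟩ : A) * (Y * W) := hinj (by
      rw [map_mul, map_mul, map_mul, hsingle, ← h, ← hfzL]
      rw [show algebraMap L (LaurentSeries L) c⁻¹ *
          (algebraMap L (LaurentSeries L) c * (f : LaurentSeries L) * coeffMap A.subtype Z *
            coeffMap A.subtype W) =
          algebraMap L (LaurentSeries L) c⁻¹ * algebraMap L (LaurentSeries L) c *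
            ((f : LaurentSeries L) * coeffMap A.subtype Z * coeffMap A.subtype W) by ring,
        ← map_mul, inv_mul_cancel₀ hc, map_one, one_mul]
      ring)
    have key' := congrArg (coeffMap π) key
    rw [map_mul, map_mul, hsingle', hπ, map_zero, zero_mul, mul_eq_zero] at key'
    refine ⟨0, ?_, ?_⟩
    · have h1 := (D.reduces_algebraMap ⟨c⁻¹, hc'⟩).mul hred
      rw [hπ, map_zero, zero_mul, ← mul_assoc, ← map_mul,
        show ((⟨c⁻¹, hc'⟩ : A) : L) * c = 1 from inv_mul_cancel₀ hc, map_one, one_mul] at h1
      exact h1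
    · rw [key'.resolve_right hZ0]
      simp

/-- A coefficientwise reduction is a series model. -/
theorem seriesModel_of_coefficientwise (hD : IsCoefficientwise D) :
    SeriesModel D (laurentBaseChange L (modularFunctionFieldFull N)).val
      (modularFunctionFieldFullC k N).val where
  frac f g hfg := by
    obtain ⟨Y, Z, hY, hZ, gY, gZ, hgY, hgZ, hgZ0, -, -, hfz, hgz⟩ := hD.exists_frac hfg
    exact ⟨Y, Z, fun e => hgZ0 (Subtype.ext (hgZ.trans e)), congrArg Subtype.val hfz, by
      rw [IntermediateField.coe_val, ← hgY, ← hgZ, ← IntermediateField.coe_mul, hgz]⟩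
  of_series f W V hW h := reduces_of_series hD hW h

end Reduction

end Fermat.Agent.LLp
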